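import Fermat.Agent.LubinTate.Torsion.Field
import Mathlib.FieldTheory.PolynomialGaloisGroup

/-!
# Torsion of the group of Lubin and Tate: the Galois group

The `π ^ (k + 1)`-torsion points are `[a] (lam)` for `a` in `O / π ^ (k + 1)`; the extension they
generate is Galois with group `(O / π ^ (k + 1))ˣ`, a unit acting by multiplication.
-/

set_option autoImplicit false

noncomputable section

open IsLocalRing

namespace Fermat.Agent.LubinTate

variable {O : Type*} [CommRing O] [IsDomain O] [IsDiscreteValuationRing O]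
  [Finite (ResidueField O)] {π : O} (hπ : Irreducible π) (k : ℕ)

/-- The endomorphism `[a]` of the group of `π X + X ^ q`. -/
def torsionScalar (a : O) : PowerSeries O :=
  scalarHom (isLubinTateBase hπ) (isLTSeries_basicPoly (isLubinTateBase hπ))
    (isLTSeries_basicPoly (isLubinTateBase hπ)) a

include hπ

omit [Finite (ResidueField O)] in
theorem card_quotient_span_pow (n : ℕ) :
    Nat.card (O ⧸ Ideal.span {π ^ n}) = residueCard O ^ n := by
  rw [← Ideal.span_singleton_pow, ← hπ.maximalIdeal_eq, residueCard]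
  have h := cardQuot_pow_of_prime (P := maximalIdeal O) (i := n)
    (IsDiscreteValuationRing.not_a_field O)
  rwa [Submodule.cardQuot_apply, Submodule.cardQuot_apply] at h

theorem finite_quotient_span_pow (n : ℕ) : Finite (O ⧸ Ideal.span {π ^ n}) :=
  Nat.finite_of_card_ne_zero (by
    rw [card_quotient_span_pow hπ]
    exact pow_ne_zero _ (by have := (isLubinTateBase hπ).two_le; omega))

omit [Finite (ResidueField O)] in
theorem isLocalHom_quotient : IsLocalHom (Ideal.Quotient.mk (Ideal.span {π ^ (k + 1)})) := by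
  refine ⟨fun a ha => ?_⟩
  by_contra h
  rw [← mem_nonunits_iff, ← IsLocalRing.mem_maximalIdeal, hπ.maximalIdeal_eq] at h
  obtain ⟨b, hb⟩ := ha.exists_right_inv
  obtain ⟨b, rfl⟩ := Ideal.Quotient.mk_surjective b
  rw [← map_mul, ← map_one (Ideal.Quotient.mk (Ideal.span {π ^ (k + 1)})),
    Ideal.Quotient.mk_eq_mk_iff_sub_mem] at hb
  have h1 : a * b - 1 ∈ Ideal.span {π} := (Ideal.span_singleton_le_span_singleton.2
    (dvd_pow_self π k.succ_ne_zero)) hb
  have h2 : (1 : O) ∈ Ideal.span {π} := by
    simpa using sub_mem (Ideal.mul_mem_right b _ h) h1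
  exact hπ.not_isUnit (isUnit_of_dvd_one (Ideal.mem_span_singleton.1 h2))

/-- The number of units of `O / π ^ (k + 1)`. -/
theorem card_units_quotient :
    Nat.card (O ⧸ Ideal.span {π ^ (k + 1)})ˣ = torsionDegree O k := by
  have hfin := finite_quotient_span_pow hπ (k + 1)
  have hloc := isLocalHom_quotient hπ k
  let ρ : O ⧸ Ideal.span {π ^ (k + 1)} →+* ResidueField O :=
    Ideal.Quotient.lift _ (residue O) fun a ha => (residue_eq_zero_iff a).2 (by
      rw [hπ.maximalIdeal_eq]
      exact Ideal.span_singleton_le_span_singleton.2 (dvd_pow_self π k.succ_ne_zero) ha)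
  have hρ : ∀ x, IsUnit x ↔ ρ x ≠ 0 := by
    intro x
    obtain ⟨a, rfl⟩ := Ideal.Quotient.mk_surjective x
    rw [isUnit_map_iff, Ideal.Quotient.lift_mk, Ne, residue_eq_zero_iff,
      IsLocalRing.mem_maximalIdeal, mem_nonunits_iff, not_not]
  have hsurj : Function.Surjective ρ :=
    Ideal.Quotient.lift_surjective_of_surjective _ _ IsLocalRing.residue_surjective
  -- the kernel of the map to the residue field
  have hker : Nat.card ρ.toAddMonoidHom.ker * residueCard O = residueCard O ^ (k + 1) := by
    rw [← card_quotient_span_pow hπ, ← AddSubgroup.card_mul_index ρ.toAddMonoidHom.ker,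
      AddSubgroup.index_ker, (AddMonoidHom.range_eq_top (f := ρ.toAddMonoidHom)).2 hsurj,
      AddSubgroup.card_top]
    rfl
  have hq := (isLubinTateBase hπ).two_le
  have hk : Nat.card ρ.toAddMonoidHom.ker = residueCard O ^ k :=
    Nat.eq_of_mul_eq_mul_right (by omega) (hker.trans (pow_succ _ _))
  have he : Nat.card (O ⧸ Ideal.span {π ^ (k + 1)})ˣ =
      Nat.card {x : O ⧸ Ideal.span {π ^ (k + 1)} // ¬ ρ x = 0} :=
    Nat.card_congr
      { toFun := fun u => ⟨u, (hρ _).1 u.isUnit⟩
        invFun := fun x => ((hρ _).2 x.2).unit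
        left_inv := fun u => Units.ext rfl
        right_inv := fun x => Subtype.ext rfl }
  have hsum := Set.ncard_add_ncard_compl {x : O ⧸ Ideal.span {π ^ (k + 1)} | ρ x = 0}
  rw [Set.compl_ofPred, ← Nat.card_coe_set_eq, ← Nat.card_coe_set_eq,
    card_quotient_span_pow hπ] at hsum
  change Nat.card ρ.toAddMonoidHom.ker +
    Nat.card {x : O ⧸ Ideal.span {π ^ (k + 1)} // ¬ ρ x = 0} = _ at hsum
  rw [← he, hk, pow_succ (residueCard O)] at hsum
  rw [torsionDegree, Nat.mul_sub_one]
  omega

variable {K : Type*} [Field K] [Algebra O K] [IsFractionRing O K] {L : Type*} [Field L]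
  [Algebra K L] [Algebra O L] [IsScalarTower O K L] [IsAdicComplete (maximalIdeal O) O]
  {lam : L} (hlam : IsTorsionGenerator K π k lam)
include hlam

/-- The torsion point `[a] (lam)`. -/
def torsionPoint (a : O) : L := evalAt hπ k hlam (torsionScalar hπ a)

omit [IsFractionRing O K] [IsScalarTower O K L] in
theorem torsionPoint_one : torsionPoint hπ k hlam 1 = lam := by
  rw [torsionPoint, torsionScalar, scalarHom_one, evalAt_X]

omit [IsFractionRing O K] [IsScalarTower O K L] in
theorem evalAt_iterPoly : evalAt hπ k hlam (iterPoly π (residueCard O) (k + 1) : PowerSeries O) =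
    0 := by
  rw [iterPoly_succ (by have := (isLubinTateBase hπ).two_le; omega), Polynomial.coe_mul, map_mul,
    evalAt_coe hπ k hlam (levelPoly _ _ _), hlam.aeval_eq, mul_zero]

omit [IsAdicComplete (maximalIdeal O) O] in
theorem aeval_iterPoly_ne_zero :
    Polynomial.aeval lam (iterPoly π (residueCard O) k) ≠ 0 := fun h => by
  have h1 := hlam.aeval_eq
  rw [torsionPoly, levelPoly, map_add, map_pow, h,
    zero_pow (by have := (isLubinTateBase hπ).two_le; omega), zero_add, Polynomial.aeval_C,
    IsScalarTower.algebraMap_apply O K L, map_eq_zero] at h1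
  exact hπ.ne_zero (IsFractionRing.injective O K (h1.trans (map_zero _).symm))

theorem torsionPoint_eq_zero_iff (b : O) :
    torsionPoint hπ k hlam b = 0 ↔ π ^ (k + 1) ∣ b := by
  constructor
  · intro h
    rcases eq_or_ne b 0 with rfl | hb
    · exact dvd_zero _
    obtain ⟨j, u, rfl⟩ := IsDiscreteValuationRing.eq_unit_mul_pow_irreducible hb hπ
    by_contra hdvd
    have hj : j ≤ k := by
      by_contra hj
      exact hdvd (Dvd.dvd.mul_left (pow_dvd_pow π (by omega)) _)
    obtain ⟨U, hU, he, -⟩ := exists_iterPoly_subst (isLubinTateBase hπ) (u : O) j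
    rw [torsionPoint, torsionScalar, he, map_mul, mul_eq_zero, evalAt_coe] at h
    rcases h with h | h
    · obtain ⟨c, hc⟩ := iterPoly_dvd (π := π) (q := residueCard O)
        (by have := (isLubinTateBase hπ).two_le; omega) hj
      exact aeval_iterPoly_ne_zero hπ k hlam (by rw [hc, map_mul, h, zero_mul])
    · exact ((PowerSeries.isUnit_iff_constantCoeff.2 (hU ▸ u.isUnit)).map
        (evalAt hπ k hlam)).ne_zero h
  · rintro ⟨c, rfl⟩
    obtain ⟨U, -, he, -⟩ := exists_iterPoly_subst (isLubinTateBase hπ) c (k + 1)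
    rw [torsionPoint, torsionScalar, mul_comm, he, map_mul, evalAt_iterPoly, zero_mul]

/-- Torsion points are equal exactly when the scalars are congruent modulo `π ^ (k + 1)`. -/
theorem torsionPoint_eq_iff (a b : O) :
    torsionPoint hπ k hlam a = torsionPoint hπ k hlam b ↔
      a - b ∈ Ideal.span {π ^ (k + 1)} := by
  obtain ⟨G, hG, he⟩ := exists_scalarHom_add (isLubinTateBase hπ)
    (isLTSeries_basicPoly (isLubinTateBase hπ)) (isLTSeries_basicPoly (isLubinTateBase hπ))
    b (a - b)
  rw [add_sub_cancel] at he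
  rw [Ideal.mem_span_singleton, ← torsionPoint_eq_zero_iff hπ k hlam]
  simp only [torsionPoint, torsionScalar]
  rw [he, map_add, map_mul, add_eq_left, mul_eq_zero]
  refine ⟨fun h => h.resolve_right ?_, Or.inl⟩
  exact ((PowerSeries.isUnit_iff_constantCoeff.2 (hG ▸ isUnit_one)).map
    (evalAt hπ k hlam)).ne_zero

omit [IsFractionRing O K] [IsScalarTower O K L] in
theorem aeval_torsionPoint_eq (a : O) (p : Polynomial O) :
    Polynomial.aeval (torsionPoint hπ k hlam a) p =
      evalAt hπ k hlam (PowerSeries.subst (torsionScalar hπ a) (p : PowerSeries O)) := by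
  have hs : PowerSeries.HasSubst (torsionScalar hπ a) :=
    PowerSeries.HasSubst.of_constantCoeff_zero (constantCoeff_scalarHom _ _ _ a)
  rw [PowerSeries.subst_coe hs, torsionPoint, Polynomial.aeval_algHom_apply]

theorem aeval_torsionPoint_level {a : O} (ha : IsUnit a) :
    Polynomial.aeval (torsionPoint hπ k hlam a) (torsionPoly π k) = 0 := by
  rw [aeval_torsionPoint_eq, evalAt_eq_zero_iff]
  exact levelPoly_subst (isLubinTateBase hπ) ha k

omit [IsFractionRing O K] [IsScalarTower O K L] in
theorem aeval_torsionPoint_iter (a : O) :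
    Polynomial.aeval (torsionPoint hπ k hlam a) (iterPoly π (residueCard O) (k + 1)) = 0 := by
  obtain ⟨U, -, -, he⟩ := exists_iterPoly_subst (isLubinTateBase hπ) a (k + 1)
  rw [aeval_torsionPoint_eq, torsionScalar, he, map_mul, evalAt_iterPoly, zero_mul]

/-- The automorphism of `L` belonging to a unit. -/
def torsionAlgHom (a : Oˣ) : L →ₐ[K] L :=
  (torsionBasis hπ k hlam).lift (torsionPoint hπ k hlam a) (by
    rw [torsionBasis_gen, minpoly_lam hπ k hlam, Polynomial.aeval_map_algebraMap]
    exact aeval_torsionPoint_level hπ k hlam a.isUnit)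

theorem torsionAlgHom_lam (a : Oˣ) :
    torsionAlgHom hπ k hlam a lam = torsionPoint hπ k hlam a :=
  (torsionBasis hπ k hlam).lift_gen _ _

theorem torsionAlgHom_point (u : Oˣ) (a : O) :
    torsionAlgHom hπ k hlam u (torsionPoint hπ k hlam a) =
      torsionPoint hπ k hlam (u * a) := by
  have h0 := isLTSeries_basicPoly (isLubinTateBase hπ)
  have hs : PowerSeries.HasSubst (torsionScalar hπ (u : O)) :=
    PowerSeries.HasSubst.of_constantCoeff_zero (constantCoeff_scalarHom _ _ _ _)
  obtain ⟨p, c, hc⟩ := exists_poly_dvd_sub hπ k (torsionScalar hπ a)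
  have hA : torsionScalar hπ a = (p : PowerSeries O) + (torsionPoly π k : PowerSeries O) * c := by
    rw [← hc]; ring
  have h1 : torsionPoint hπ k hlam a = Polynomial.aeval lam p := by
    rw [torsionPoint, hA, map_add, map_mul, (evalAt_eq_zero_iff hπ k hlam _).2 dvd_rfl, zero_mul,
      add_zero, evalAt_coe]
  have h2 : torsionPoint hπ k hlam (u * a) =
      Polynomial.aeval (torsionPoint hπ k hlam (u : O)) p := by
    rw [mul_comm, torsionPoint, torsionScalar,
      scalarHom_mul (isLubinTateBase hπ) h0 h0 h0 a (u : O)]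
    change evalAt hπ k hlam (PowerSeries.subst (torsionScalar hπ (u : O)) (torsionScalar hπ a)) = _
    rw [hA, PowerSeries.subst_add hs, PowerSeries.subst_mul hs, map_add, map_mul,
      ← aeval_torsionPoint_eq, ← aeval_torsionPoint_eq,
      aeval_torsionPoint_level hπ k hlam u.isUnit, zero_mul, add_zero]
  rw [h1, h2, ← torsionAlgHom_lam hπ k hlam u]
  exact (Polynomial.aeval_algHom_apply ((torsionAlgHom hπ k hlam u).restrictScalars O) lam p).symm

/-- The homomorphism from units to automorphisms. -/
def torsionAut : Oˣ →* (L ≃ₐ[K] L) :=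
  have := finiteDimensional hπ k hlam
  { toFun := fun u => AlgEquiv.ofBijective (torsionAlgHom hπ k hlam u) (AlgHom.bijective _)
    map_one' := by
      refine AlgEquiv.coe_toAlgHom_injective ((torsionBasis hπ k hlam).algHom_ext ?_)
      change torsionAlgHom hπ k hlam 1 lam = lam
      rw [torsionAlgHom_lam, Units.val_one, torsionPoint_one]
    map_mul' := fun u v => by
      refine AlgEquiv.coe_toAlgHom_injective ((torsionBasis hπ k hlam).algHom_ext ?_)
      change torsionAlgHom hπ k hlam (u * v) lam =
        torsionAlgHom hπ k hlam u (torsionAlgHom hπ k hlam v lam)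
      rw [torsionAlgHom_lam, torsionAlgHom_lam, torsionAlgHom_point, Units.val_mul] }

theorem torsionAut_point (u : Oˣ) (a : O) :
    torsionAut hπ k hlam u (torsionPoint hπ k hlam a) = torsionPoint hπ k hlam (u * a) :=
  torsionAlgHom_point hπ k hlam u a

theorem ker_torsionAut : (torsionAut hπ k hlam).ker =
    (Units.map (Ideal.Quotient.mk (Ideal.span {π ^ (k + 1)})).toMonoidHom).ker := by
  ext u
  rw [MonoidHom.mem_ker, MonoidHom.mem_ker]
  have h : torsionAut hπ k hlam u = 1 ↔ torsionPoint hπ k hlam (u : O) = lam := by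
    constructor
    · intro h
      have h' := DFunLike.congr_fun h (torsionPoint hπ k hlam 1)
      rw [torsionAut_point, mul_one, torsionPoint_one] at h'
      exact h'
    · intro h
      refine AlgEquiv.coe_toAlgHom_injective ((torsionBasis hπ k hlam).algHom_ext ?_)
      change torsionAlgHom hπ k hlam u lam = lam
      rw [torsionAlgHom_lam, h]
  rw [h]
  conv_lhs => rhs; rw [← torsionPoint_one hπ k hlam]
  rw [torsionPoint_eq_iff, Units.ext_iff, Units.coe_map, RingHom.toMonoidHom_eq_coe,
    MonoidHom.coe_coe, Units.val_one, ← map_one (Ideal.Quotient.mk (Ideal.span {π ^ (k + 1)})),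
    Ideal.Quotient.mk_eq_mk_iff_sub_mem]

/-- **The Galois group of the torsion extension**: `(O / π ^ (k + 1))ˣ`, acting on torsion points
by multiplication, and the extension is Galois. -/
theorem galois_torsion : IsGalois K L ∧
    ∃ e : (O ⧸ Ideal.span {π ^ (k + 1)})ˣ ≃* (L ≃ₐ[K] L), ∀ (u : Oˣ) (a : O),
      e (Units.map (Ideal.Quotient.mk (Ideal.span {π ^ (k + 1)})).toMonoidHom u)
        (torsionPoint hπ k hlam a) = torsionPoint hπ k hlam (u * a) := by
  have hfd := finiteDimensional hπ k hlam
  have hloc := isLocalHom_quotient hπ k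
  set ψ := Units.map (Ideal.Quotient.mk (Ideal.span {π ^ (k + 1)})).toMonoidHom with hψdef
  have hψ : Function.Surjective ψ :=
    IsLocalRing.surjective_units_map_of_local_ringHom _ Ideal.Quotient.mk_surjective hloc
  set σ := torsionAut hπ k hlam with hσ
  have hcard : Nat.card σ.range = Module.finrank K L := by
    rw [← Nat.card_congr (QuotientGroup.quotientKerEquivRange σ).toEquiv, hσ, ker_torsionAut,
      Nat.card_congr (QuotientGroup.quotientKerEquivOfSurjective ψ hψ).toEquiv,
      card_units_quotient hπ, finrank_eq hπ k hlam]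
  have hle : Nat.card (L ≃ₐ[K] L) ≤ Module.finrank K L := by
    rw [Nat.card_eq_fintype_card]; exact AlgEquiv.card_le
  have htop : σ.range = ⊤ :=
    Subgroup.eq_top_of_le_card _ (hle.trans hcard.ge)
  have hall : Nat.card (L ≃ₐ[K] L) = Module.finrank K L := by
    rw [← hcard, htop, Subgroup.card_top]
  refine ⟨IsGalois.of_card_aut_eq_finrank K L hall,
    (QuotientGroup.quotientKerEquivOfSurjective ψ hψ).symm.trans
      ((QuotientGroup.quotientMulEquivOfEq (ker_torsionAut hπ k hlam).symm).trans
        (QuotientGroup.quotientKerEquivOfSurjective σ (MonoidHom.range_eq_top.1 htop))),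
    fun u a => ?_⟩
  have hu : (QuotientGroup.quotientKerEquivOfSurjective ψ hψ).symm (ψ u) =
      QuotientGroup.mk u := by
    rw [MulEquiv.symm_apply_eq]; rfl
  rw [MulEquiv.trans_apply, hu]
  exact torsionAut_point hπ k hlam u a

/-- The roots of the iterate are exactly the torsion points: there are `q ^ (k + 1)` of them, and
`L` is the splitting field. -/
theorem isSplittingField_torsion :
    ((iterPoly π (residueCard O) (k + 1)).map (algebraMap O K)).rootSet L =
        Set.range (torsionPoint hπ k hlam) ∧
      Nat.card (Set.range (torsionPoint hπ k hlam)) = residueCard O ^ (k + 1) ∧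
      ((iterPoly π (residueCard O) (k + 1)).map (algebraMap O K)).IsSplittingField K L := by
  classical
  have hq := (isLubinTateBase hπ).two_le
  have := nontrivial_quotient hπ
  set g := iterPoly π (residueCard O) (k + 1)
  set gK := g.map (algebraMap O K)
  have hmon : g.Monic := (monic_iterPoly hq (k + 1)).1
  have hdeg : (gK.map (algebraMap K L)).natDegree = residueCard O ^ (k + 1) := by
    rw [(hmon.map _).natDegree_map, hmon.natDegree_map, natDegree_iterPoly hq]
  have hne : gK.map (algebraMap K L) ≠ 0 := ((hmon.map _).map _).ne_zero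
  have hsub : Set.range (torsionPoint hπ k hlam) ⊆ gK.rootSet L := by
    rintro _ ⟨a, rfl⟩
    rw [Polynomial.mem_rootSet', Polynomial.aeval_map_algebraMap]
    exact ⟨hne, aeval_torsionPoint_iter hπ k hlam a⟩
  let τ : O ⧸ Ideal.span {π ^ (k + 1)} → L :=
    Quotient.lift (torsionPoint hπ k hlam) fun a b hab =>
      (torsionPoint_eq_iff hπ k hlam a b).2 ((Submodule.quotientRel_def _).1 hab)
  have hτ : Function.Injective τ := by
    intro x y hxy
    obtain ⟨a, rfl⟩ := Ideal.Quotient.mk_surjective x
    obtain ⟨b, rfl⟩ := Ideal.Quotient.mk_surjective y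
    exact (Ideal.Quotient.mk_eq_mk_iff_sub_mem a b).2 ((torsionPoint_eq_iff hπ k hlam a b).1 hxy)
  have hrange : Set.range τ = Set.range (torsionPoint hπ k hlam) := by
    refine Set.Subset.antisymm ?_ fun x ⟨a, ha⟩ => ⟨Ideal.Quotient.mk _ a, ha⟩
    rintro _ ⟨x, rfl⟩
    obtain ⟨a, rfl⟩ := Ideal.Quotient.mk_surjective x
    exact ⟨a, rfl⟩
  have hcard : Nat.card (Set.range (torsionPoint hπ k hlam)) = residueCard O ^ (k + 1) := by
    rw [← hrange, Nat.card_range_of_injective hτ, card_quotient_span_pow hπ]
  have hroots : Nat.card (gK.rootSet L) ≤ (gK.map (algebraMap K L)).roots.card := by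
    rw [Nat.card_coe_set_eq, Polynomial.rootSet_def, Set.ncard_coe_finset, Polynomial.aroots_def]
    exact Multiset.toFinset_card_le _
  have hfin : (gK.rootSet L).Finite := Polynomial.rootSet_finite _ _
  have heq : gK.rootSet L = Set.range (torsionPoint hπ k hlam) := by
    refine (Set.eq_of_subset_of_ncard_le hsub ?_ hfin).symm
    rw [← Nat.card_coe_set_eq, ← Nat.card_coe_set_eq, hcard, ← hdeg]
    exact hroots.trans (Polynomial.card_roots' _)
  refine ⟨heq, hcard, ⟨?_, ?_⟩⟩
  · rw [Polynomial.splits_iff_card_roots]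
    refine le_antisymm (Polynomial.card_roots' _) ?_
    rw [hdeg, ← hcard, ← heq]
    exact hroots
  · rw [eq_top_iff, ← hlam.adjoin_eq]
    refine Algebra.adjoin_mono (Set.singleton_subset_iff.2 ?_)
    rw [heq]
    exact ⟨1, torsionPoint_one hπ k hlam⟩

omit hπ hlam lam L [Field L] [Algebra K L] [Algebra O L] [IsScalarTower O K L] in
/-- The splitting field of the iterate has a generator of exact level `k + 1`. -/
theorem exists_torsionGenerator (hπ : Irreducible π) :
    ∃ lam : ((iterPoly π (residueCard O) (k + 1)).map (algebraMap O K)).SplittingField,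
      IsTorsionGenerator K π k lam := by
  set Φ := (torsionPoly π k).map (algebraMap O K) with hΦ
  have hirr : Irreducible Φ :=
    (Polynomial.Monic.irreducible_iff_irreducible_map_fraction_map
      (torsionPoly_facts hπ k).1).1 (irreducible_torsionPoly hπ k)
  have : Fact (Irreducible Φ) := ⟨hirr⟩
  have hroot : IsTorsionGenerator K π k (AdjoinRoot.root Φ) := by
    refine ⟨?_, AdjoinRoot.adjoinRoot_eq_top⟩
    rw [← Polynomial.aeval_map_algebraMap K, ← hΦ, AdjoinRoot.aeval_eq, AdjoinRoot.mk_self]
  have hsf := (isSplittingField_torsion hπ k hroot).2.2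
  set g := (iterPoly π (residueCard O) (k + 1)).map (algebraMap O K) with hg
  let e : AdjoinRoot Φ ≃ₐ[K] g.SplittingField :=
    have := hsf
    Polynomial.IsSplittingField.algEquiv (AdjoinRoot Φ) g
  refine ⟨e (AdjoinRoot.root Φ), ?_, ?_⟩
  · rw [← Polynomial.aeval_map_algebraMap K, ← hΦ, Polynomial.aeval_algHom_apply,
      AdjoinRoot.aeval_eq, AdjoinRoot.mk_self, map_zero]
  · have h := congrArg (Subalgebra.map e.toAlgHom) hroot.adjoin_eq
    rw [AlgHom.map_adjoin, Set.image_singleton, Algebra.map_top,
      (AlgHom.range_eq_top e.toAlgHom).2 e.surjective] at h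
    exact h

end Fermat.Agent.LubinTate
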