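import Fermat.Agent.LubinTate.Torsion.Series
import Mathlib.RingTheory.PowerSeries.WeierstrassPreparation
import Mathlib.RingTheory.DiscreteValuationRing.TFAE
import Mathlib.RingTheory.Norm.Transitivity
import Mathlib.RingTheory.Adjoin.PowerBasis
import Mathlib.RingTheory.Polynomial.GaussLemma
import Mathlib.RingTheory.Localization.Integral
import Mathlib.RingTheory.Ideal.Norm.AbsNorm

/-!
# Torsion of the group of Lubin and Tate: evaluation and ramification

Let `lam` be a root of `Φ k` generating `L` over `K`. Power series over `O` are evaluated at `lam`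
through `O⟦X⟧ / (Φ k) ≅ O[X] / (Φ k)` (Weierstrass division). Every nonzero element of `L` is a
unit series at `lam` times a power of `lam`: the extension is totally ramified.
-/

set_option autoImplicit false

noncomputable section

open IsLocalRing

namespace Fermat.Agent.LubinTate

variable {O : Type*} [CommRing O] [IsDomain O] [IsDiscreteValuationRing O]
  [Finite (ResidueField O)] {π : O}

/-- The cardinality of the residue field. -/
def residueCard (O : Type*) [CommRing O] [IsLocalRing O] : ℕ := Nat.card (ResidueField O)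

theorem isLubinTateBase (hπ : Irreducible π) : IsLubinTateBase π (residueCard O) where
  regular a h := (mul_eq_zero.1 h).resolve_left hπ.ne_zero
  mem_jacobson := by
    rw [IsLocalRing.jacobson_eq_maximalIdeal _ bot_ne_top, hπ.maximalIdeal_eq]
    exact Ideal.mem_span_singleton_self _
  exists_prime_pow := by
    let := Fintype.ofFinite (ResidueField O)
    obtain ⟨p, hp⟩ := CharP.exists (ResidueField O)
    obtain ⟨r, hpr, hr⟩ := FiniteField.card (ResidueField O) p
    refine ⟨p, r, hpr, r.pos, by rw [residueCard, Nat.card_eq_fintype_card, hr], ?_⟩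
    rw [← hπ.maximalIdeal_eq, ← IsLocalRing.residue_eq_zero_iff, map_natCast]
    exact CharP.cast_eq_zero _ p
  pow_sub_self a := by
    let := Fintype.ofFinite (ResidueField O)
    rw [← hπ.maximalIdeal_eq, ← IsLocalRing.residue_eq_zero_iff, map_sub, map_pow, residueCard,
      Nat.card_eq_fintype_card, FiniteField.pow_card, sub_self]

omit [IsDomain O] [IsDiscreteValuationRing O] [Finite (ResidueField O)] in
theorem nontrivial_quotient (hπ : Irreducible π) : Nontrivial (O ⧸ Ideal.span {π}) :=
  Ideal.Quotient.nontrivial_iff.2 (by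
    rw [Ne, Ideal.span_singleton_eq_top]; exact hπ.not_isUnit)

/-- The level polynomial for `O`. -/
abbrev torsionPoly (π : O) (k : ℕ) : Polynomial O := levelPoly π (residueCard O) k

/-- The degree of the level `k + 1` extension. -/
def torsionDegree (O : Type*) [CommRing O] [IsLocalRing O] (k : ℕ) : ℕ :=
  residueCard O ^ k * (residueCard O - 1)

variable (hπ : Irreducible π) (k : ℕ)
include hπ

theorem torsionDegree_pos : 0 < torsionDegree O k := by
  have h := (isLubinTateBase hπ).two_le
  exact Nat.mul_pos (pow_pos (by omega) k) (by omega)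

theorem torsionPoly_facts : (torsionPoly π k).Monic ∧
    (torsionPoly π k).natDegree = torsionDegree O k ∧ (torsionPoly π k).coeff 0 = π ∧
    ∀ i < torsionDegree O k, (torsionPoly π k).coeff i ∈ Ideal.span {π} :=
  have := nontrivial_quotient hπ
  levelPoly_facts (isLubinTateBase hπ).two_le k

theorem isDistinguished : (torsionPoly π k).IsDistinguishedAt (maximalIdeal O) := by
  obtain ⟨h1, h2, -, h4⟩ := torsionPoly_facts hπ k
  exact ⟨⟨fun {i} hi => by rw [hπ.maximalIdeal_eq]; exact h4 i (h2 ▸ hi)⟩, h1⟩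

/-- The level polynomial is Eisenstein. -/
theorem isEisensteinAt : (torsionPoly π k).IsEisensteinAt (maximalIdeal O) := by
  obtain ⟨h1, h2, h3, h4⟩ := torsionPoly_facts hπ k
  refine h1.isEisensteinAt_of_mem_of_notMem (Ideal.IsPrime.ne_top inferInstance)
    (fun {i} hi => by rw [hπ.maximalIdeal_eq]; exact h4 i (h2 ▸ hi)) fun h => ?_
  rw [h3, hπ.maximalIdeal_eq, Ideal.span_singleton_pow, Ideal.mem_span_singleton] at h
  obtain ⟨c, hc⟩ := h
  refine hπ.not_isUnit (IsUnit.of_mul_eq_one c ?_)
  refine mul_left_cancel₀ hπ.ne_zero ?_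
  rw [mul_one, ← mul_assoc, ← sq, ← hc]

theorem irreducible_torsionPoly : Irreducible (torsionPoly π k) :=
  (isEisensteinAt hπ k).irreducible inferInstance (torsionPoly_facts hπ k).1.isPrimitive
    ((torsionPoly_facts hπ k).2.1 ▸ torsionDegree_pos hπ k)

variable {K : Type*} [Field K] [Algebra O K] [IsFractionRing O K] {L : Type*} [Field L]
  [Algebra K L] [Algebra O L] [IsScalarTower O K L]

/-- A generator of level `k + 1`. -/
structure IsTorsionGenerator (K : Type*) [Field K] [Algebra O K] {L : Type*} [Field L]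
    [Algebra K L] [Algebra O L] (π : O) (k : ℕ) (lam : L) : Prop where
  aeval_eq : Polynomial.aeval lam (torsionPoly π k) = 0
  adjoin_eq : Algebra.adjoin K {lam} = ⊤

variable {lam : L} (hlam : IsTorsionGenerator K π k lam)
include hlam

theorem minpoly_lam : minpoly K lam = (torsionPoly π k).map (algebraMap O K) := by
  refine (minpoly.eq_of_irreducible_of_monic ?_ ?_ ((torsionPoly_facts hπ k).1.map _)).symm
  · exact (Polynomial.Monic.irreducible_iff_irreducible_map_fraction_map
      (torsionPoly_facts hπ k).1).1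
      (irreducible_torsionPoly hπ k)
  · rw [Polynomial.aeval_map_algebraMap, hlam.aeval_eq]

omit [IsFractionRing O K] [IsScalarTower O K L] in
theorem isIntegral_lam : IsIntegral O lam :=
  ⟨torsionPoly π k, (torsionPoly_facts hπ k).1, hlam.aeval_eq⟩

/-- The power basis of `lam`. -/
def torsionBasis : PowerBasis K L :=
  (Algebra.adjoin.powerBasis (isIntegral_lam hπ k hlam).tower_top).map
    ((Subalgebra.equivOfEq _ _ hlam.adjoin_eq).trans Subalgebra.topEquiv)

omit [IsFractionRing O K] in
theorem torsionBasis_gen : (torsionBasis hπ k hlam).gen = lam := rfl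

omit [IsFractionRing O K] in
theorem finiteDimensional : FiniteDimensional K L := (torsionBasis hπ k hlam).finite

/-- The degree of the torsion extension. -/
theorem finrank_eq : Module.finrank K L = torsionDegree O k := by
  rw [(torsionBasis hπ k hlam).finrank, ← PowerBasis.natDegree_minpoly, torsionBasis_gen,
    minpoly_lam hπ k hlam, (torsionPoly_facts hπ k).1.natDegree_map,
    (torsionPoly_facts hπ k).2.1]

omit hπ [Finite (ResidueField O)] [IsFractionRing O K] [IsScalarTower O K L] in
theorem aeval_span_eq_zero :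
    ∀ p ∈ Ideal.span {torsionPoly π k}, Polynomial.aeval lam p = 0 := fun p hp => by
  obtain ⟨c, rfl⟩ := Ideal.mem_span_singleton'.1 hp
  rw [map_mul, hlam.aeval_eq, mul_zero]

theorem aeval_eq_zero_iff (p : Polynomial O) :
    Polynomial.aeval lam p = 0 ↔ torsionPoly π k ∣ p := by
  refine ⟨fun h => ?_, fun h => aeval_span_eq_zero k hlam p (Ideal.mem_span_singleton.2 h)⟩
  rw [← Polynomial.map_dvd_map (algebraMap O K) (IsFractionRing.injective O K)
    (torsionPoly_facts hπ k).1, ← minpoly_lam hπ k hlam, minpoly.dvd_iff,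
    Polynomial.aeval_map_algebraMap, h]

variable [IsAdicComplete (maximalIdeal O) O]

/-- Evaluation of power series at `lam`. -/
def evalAt : PowerSeries O →ₐ[O] L :=
  have := hlam
  (Ideal.Quotient.liftₐ (Ideal.span {torsionPoly π k}) (Polynomial.aeval lam)
      (aeval_span_eq_zero k hlam)).comp
    ((isDistinguished hπ k).algEquivQuotient.symm.toAlgHom.comp (Ideal.Quotient.mkₐ O _))

omit [IsFractionRing O K] [IsScalarTower O K L] in
/-- On polynomials it is the usual evaluation. -/
theorem evalAt_coe (p : Polynomial O) :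
    evalAt hπ k hlam (p : PowerSeries O) = Polynomial.aeval lam p := by
  have h : (isDistinguished hπ k).algEquivQuotient (Ideal.Quotient.mk _ p) =
      Ideal.Quotient.mk _ (p : PowerSeries O) := rfl
  have h' := ((isDistinguished hπ k).algEquivQuotient.symm_apply_eq).2 h.symm
  rw [evalAt, AlgHom.comp_apply, AlgHom.comp_apply, Ideal.Quotient.mkₐ_eq_mk]
  exact (congrArg (Ideal.Quotient.liftₐ _ _ (aeval_span_eq_zero k hlam)) h').trans rfl

omit [IsFractionRing O K] [IsScalarTower O K L] in
theorem evalAt_X : evalAt hπ k hlam PowerSeries.X = lam := by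
  rw [← Polynomial.coe_X, evalAt_coe, Polynomial.aeval_X]

omit [IsFractionRing O K] [IsScalarTower O K L] hlam in
/-- Every series is a polynomial modulo the level polynomial. -/
theorem exists_poly_dvd_sub (h : PowerSeries O) :
    ∃ p : Polynomial O, (torsionPoly π k : PowerSeries O) ∣ h - p := by
  obtain ⟨p, hp⟩ := Ideal.Quotient.mk_surjective
    ((isDistinguished hπ k).algEquivQuotient.symm (Ideal.Quotient.mk _ h))
  refine ⟨p, Ideal.mem_span_singleton.1 ((Ideal.Quotient.mk_eq_mk_iff_sub_mem _ _).1 ?_)⟩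
  exact ((AlgEquiv.eq_symm_apply _).1 hp).symm

theorem evalAt_eq_zero_iff (h : PowerSeries O) :
    evalAt hπ k hlam h = 0 ↔ (torsionPoly π k : PowerSeries O) ∣ h := by
  have hzero : evalAt hπ k hlam (torsionPoly π k : PowerSeries O) = 0 := by
    rw [evalAt_coe, hlam.aeval_eq]
  constructor
  · intro h0
    obtain ⟨p, c, hc⟩ := exists_poly_dvd_sub hπ k h
    have hp : Polynomial.aeval lam p = 0 := by
      rw [← evalAt_coe hπ k hlam, show (p : PowerSeries O) = h - (h - p) by ring, hc, map_sub, h0,
        map_mul, hzero, zero_mul, sub_zero]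
    obtain ⟨d, rfl⟩ := (aeval_eq_zero_iff hπ k hlam p).1 hp
    exact ⟨d + c, by rw [mul_add, ← Polynomial.coe_mul, ← hc]; ring⟩
  · rintro ⟨c, rfl⟩
    rw [map_mul, hzero, zero_mul]

theorem evalAt_mem_adjoin (h : PowerSeries O) :
    evalAt hπ k hlam h ∈ Algebra.adjoin O {lam} := by
  obtain ⟨p, c, hc⟩ := exists_poly_dvd_sub hπ k h
  rw [show h = (p : PowerSeries O) + (h - p) by ring, hc, map_add, map_mul,
    (evalAt_eq_zero_iff hπ k hlam _).2 dvd_rfl, zero_mul, add_zero, evalAt_coe]
  exact Polynomial.aeval_mem_adjoin_singleton O lam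

theorem isIntegral_evalAt (h : PowerSeries O) : IsIntegral O (evalAt hπ k hlam h) :=
  (adjoin_le_integralClosure (isIntegral_lam hπ k hlam)) (evalAt_mem_adjoin hπ k hlam h)

omit [IsAdicComplete (maximalIdeal O) O] in
theorem lam_ne_zero : lam ≠ 0 := by
  intro h
  have h1 := hlam.aeval_eq
  rw [h, ← Polynomial.coeff_zero_eq_aeval_zero', (torsionPoly_facts hπ k).2.2.1] at h1
  have h2 : algebraMap K L (algebraMap O K π) = 0 := by
    rwa [← IsScalarTower.algebraMap_apply]
  rw [map_eq_zero] at h2
  exact hπ.ne_zero (IsFractionRing.injective O K (h2.trans (map_zero _).symm))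

omit [IsFractionRing O K] [IsScalarTower O K L] in
/-- **Total ramification**: `π` is a unit times `lam ^ [L : K]`. -/
theorem exists_uniformizer_eq : ∃ u : PowerSeries O, IsUnit u ∧
    algebraMap O L π = evalAt hπ k hlam u * lam ^ torsionDegree O k := by
  obtain ⟨h1, h2, h3, h4⟩ := torsionPoly_facts hπ k
  choose d hd using fun i (hi : i < torsionDegree O k) => Ideal.mem_span_singleton.1 (h4 i hi)
  set v : Polynomial O := ∑ i : Fin (torsionDegree O k),
    Polynomial.C (d i i.2) * Polynomial.X ^ (i : ℕ)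
  have hv : torsionPoly π k = Polynomial.X ^ torsionDegree O k + Polynomial.C π * v := by
    conv_lhs => rw [h1.as_sum, h2]
    congr 1
    rw [Finset.mul_sum, Finset.sum_range]
    exact Finset.sum_congr rfl fun i _ => by rw [hd i i.2, map_mul]; ring
  have hv0 : v.coeff 0 = 1 := by
    have h := congrArg (fun p => Polynomial.coeff p 0) hv
    simp only [h3, Polynomial.coeff_add, Polynomial.coeff_C_mul, Polynomial.coeff_X_pow,
      (torsionDegree_pos hπ k).ne, if_false, zero_add] at h
    exact (mul_left_cancel₀ hπ.ne_zero (by rw [← h, mul_one])).symm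
  have hu : IsUnit (v : PowerSeries O) :=
    PowerSeries.isUnit_iff_constantCoeff.2 (by simp [Polynomial.constantCoeff_coe, hv0])
  obtain ⟨u, hu'⟩ := hu.exists_left_inv
  refine ⟨-u, (IsUnit.of_mul_eq_one _ hu').neg, ?_⟩
  have h := hlam.aeval_eq
  rw [hv, map_add, map_mul, map_pow, Polynomial.aeval_X, Polynomial.aeval_C,
    ← evalAt_coe hπ k hlam v] at h
  have h' := congrArg (fun x => evalAt hπ k hlam u * x) h
  simp only [mul_add, mul_zero, mul_left_comm (evalAt hπ k hlam u) (algebraMap O L π),
    ← map_mul, hu', map_one, mul_one] at h'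
  rw [map_neg, neg_mul]
  linear_combination h'

omit [IsAdicComplete (maximalIdeal O) O] in
/-- The norm of `-lam` is `π`, so `π` is a norm. -/
theorem norm_neg_lam : Algebra.norm K (-lam) = algebraMap O K π := by
  have hfd := finiteDimensional hπ k hlam
  obtain ⟨h1, h2, h3, -⟩ := torsionPoly_facts hπ k
  have hn := Algebra.PowerBasis.norm_gen_eq_coeff_zero_minpoly (torsionBasis hπ k hlam)
  rw [torsionBasis_gen, minpoly_lam hπ k hlam, Polynomial.coeff_map, h3] at hn
  have hdim : (torsionBasis hπ k hlam).dim = torsionDegree O k := by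
    rw [← finrank_eq hπ k hlam, (torsionBasis hπ k hlam).finrank]
  rw [← neg_one_mul, map_mul, hn, hdim, show (-1 : L) = algebraMap K L (-1) by simp,
    Algebra.norm_algebraMap, finrank_eq hπ k hlam, ← mul_assoc, ← mul_pow, neg_one_mul, neg_neg,
    one_pow, one_mul]

/-- Series are units or multiples of `lam`, and multiples cannot go on for ever. -/
theorem exists_unit_mul_pow {h : PowerSeries O} (hh : evalAt hπ k hlam h ≠ 0) :
    ∃ (m : ℕ) (u : PowerSeries O), IsUnit u ∧
      evalAt hπ k hlam h = evalAt hπ k hlam u * lam ^ m := by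
  have hfd := finiteDimensional hπ k hlam
  -- the norm of an integral element
  have hnorm : ∀ x : L, IsIntegral O x → ∃ c : O, algebraMap O K c = Algebra.norm K x :=
    fun x hx => IsIntegrallyClosed.isIntegral_iff.1 (Algebra.isIntegral_norm K hx)
  obtain ⟨c, hc⟩ := hnorm _ (isIntegral_evalAt hπ k hlam h)
  have hc0 : c ≠ 0 := by
    rintro rfl
    rw [map_zero, eq_comm, Algebra.norm_eq_zero_iff] at hc
    exact hh hc
  obtain ⟨N, v, hcv⟩ := IsDiscreteValuationRing.eq_unit_mul_pow_irreducible hc0 hπ
  -- induct on the valuation of the norm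
  induction N using Nat.strong_induction_on generalizing h c v with
  | _ N ih =>
    by_cases hu : IsUnit h.constantCoeff
    · exact ⟨0, h, PowerSeries.isUnit_iff_constantCoeff.2 hu, by rw [pow_zero, mul_one]⟩
    obtain ⟨u₀, -, hu₀⟩ := exists_uniformizer_eq hπ k hlam
    obtain ⟨r, hr⟩ : π ∣ h.constantCoeff := by
      rw [← Ideal.mem_span_singleton, ← hπ.maximalIdeal_eq, IsLocalRing.mem_maximalIdeal]
      exact hu
    set h' : PowerSeries O := PowerSeries.mk (fun n => h.coeff (n + 1)) +
      PowerSeries.C r * u₀ * PowerSeries.X ^ (torsionDegree O k - 1)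
    have hev : evalAt hπ k hlam h = evalAt hπ k hlam h' * lam := by
      have hCC : evalAt hπ k hlam (PowerSeries.C h.constantCoeff) =
          algebraMap O L π * algebraMap O L r := by
        rw [← Polynomial.coe_C, evalAt_coe, Polynomial.aeval_C, hr, map_mul]
      have hCr : evalAt hπ k hlam (PowerSeries.C r) = algebraMap O L r := by
        rw [← Polynomial.coe_C, evalAt_coe, Polynomial.aeval_C]
      conv_lhs => rw [h.eq_X_mul_shift_add_const, map_add, map_mul, evalAt_X, hCC, hu₀]
      rw [map_add, map_mul, map_mul, map_pow, evalAt_X, hCr, add_mul,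
        ← pow_sub_one_mul (torsionDegree_pos hπ k).ne' lam]
      ring
    have hh' : evalAt hπ k hlam h' ≠ 0 := fun h0 => hh (by rw [hev, h0, zero_mul])
    obtain ⟨c', hc'⟩ := hnorm _ (isIntegral_evalAt hπ k hlam h')
    have hc'0 : c' ≠ 0 := by
      rintro rfl
      rw [map_zero, eq_comm, Algebra.norm_eq_zero_iff] at hc'
      exact hh' hc'
    obtain ⟨N', v', hcv'⟩ := IsDiscreteValuationRing.eq_unit_mul_pow_irreducible hc'0 hπ
    have hlt : N' < N := by
      obtain ⟨w, hw⟩ : ∃ w : O, algebraMap O K w = Algebra.norm K lam :=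
        hnorm _ (isIntegral_lam hπ k hlam)
      have hwπ : w = (-1) ^ torsionDegree O k * π := IsFractionRing.injective O K (by
        rw [hw, map_mul, map_pow, map_neg, map_one, ← norm_neg_lam hπ k hlam, ← neg_one_mul lam,
          map_mul, show (-1 : L) = algebraMap K L (-1) by simp, Algebra.norm_algebraMap,
          finrank_eq hπ k hlam, ← mul_assoc, ← mul_pow, neg_one_mul, neg_neg, one_pow, one_mul])
      have hmul : c = c' * w := IsFractionRing.injective O K (by
        rw [hc, hev, map_mul, map_mul, hc', hw])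
      rw [hcv, hcv', hwπ] at hmul
      have hdvd : π ^ (N' + 1) ∣ π ^ N := by
        refine (v.isUnit.dvd_mul_left).1 ⟨v' * (-1) ^ torsionDegree O k, ?_⟩
        rw [hmul]; ring
      exact Nat.lt_of_succ_le ((pow_dvd_pow_iff hπ.ne_zero hπ.not_isUnit).1 hdvd)
    obtain ⟨m, u, hu', hm⟩ := ih N' hlt hh' c' hc' hc'0 v' hcv'
    exact ⟨m + 1, u, hu', by rw [hev, hm, pow_succ, mul_assoc]⟩

/-- Every nonzero element of `L` is a unit series at `lam` times a power of `lam`. -/
theorem exists_unit_mul_zpow {x : L} (hx : x ≠ 0) : ∃ (m : ℤ) (u : PowerSeries O),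
    IsUnit u ∧ x = evalAt hπ k hlam u * lam ^ m := by
  have hfd := finiteDimensional hπ k hlam
  obtain ⟨P, -, rfl⟩ := (torsionBasis hπ k hlam).exists_eq_aeval x
  rw [torsionBasis_gen] at hx ⊢
  obtain ⟨b, hb, hbP⟩ :=
    IsLocalization.integerNormalization_spec (nonZeroDivisors O) P
  set P' := IsLocalization.integerNormalization (nonZeroDivisors O) P
  have hb0 : b ≠ 0 := nonZeroDivisors.ne_zero hb
  have he : evalAt hπ k hlam (P' : PowerSeries O) = algebraMap O L b * Polynomial.aeval lam P := by
    rw [evalAt_coe, ← Polynomial.aeval_map_algebraMap K, hbP]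
    simp [← IsScalarTower.algebraMap_smul K b P, Algebra.smul_def,
      IsScalarTower.algebraMap_apply O K L]
  have hb' : algebraMap O L b ≠ 0 := by
    rw [IsScalarTower.algebraMap_apply O K L]
    exact (map_ne_zero _).2 ((map_ne_zero_iff _ (IsFractionRing.injective O K)).2 hb0)
  obtain ⟨m, u, hu, hm⟩ :=
    exists_unit_mul_pow hπ k hlam (h := (P' : PowerSeries O)) (he ▸ mul_ne_zero hb' hx)
  obtain ⟨t, v, hbt⟩ := IsDiscreteValuationRing.eq_unit_mul_pow_irreducible hb0 hπ
  obtain ⟨u₀, hu₀u, hu₀⟩ := exists_uniformizer_eq hπ k hlam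
  have hCv : algebraMap O L v = evalAt hπ k hlam (PowerSeries.C (v : O)) := by
    rw [← Polynomial.coe_C, evalAt_coe, Polynomial.aeval_C]
  have hw : IsUnit (PowerSeries.C (v : O) * u₀ ^ t) :=
    (v.isUnit.map _).mul (hu₀u.pow t)
  obtain ⟨w, hw'⟩ := hw.exists_left_inv
  refine ⟨(m : ℤ) - (torsionDegree O k * t : ℕ), u * w, hu.mul (IsUnit.of_mul_eq_one _ hw'), ?_⟩
  have hne := lam_ne_zero hπ k hlam
  rw [zpow_sub₀ hne, zpow_natCast, zpow_natCast, mul_div_assoc', eq_div_iff (pow_ne_zero _ hne)]
  have h1 : algebraMap O L b =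
      evalAt hπ k hlam (PowerSeries.C (v : O) * u₀ ^ t) * lam ^ (torsionDegree O k * t) := by
    rw [hbt, map_mul, map_pow, hu₀, map_mul, map_pow, mul_pow, ← hCv, pow_mul, mul_assoc]
  have h2 : evalAt hπ k hlam w * evalAt hπ k hlam (PowerSeries.C (v : O) * u₀ ^ t) = 1 := by
    rw [← map_mul, hw', map_one]
  rw [h1] at he
  rw [map_mul, mul_right_comm (evalAt hπ k hlam u), ← hm, he]
  linear_combination (-(Polynomial.aeval lam P * lam ^ (torsionDegree O k * t))) * h2

/-- The integers of `L` are `O[lam]`. -/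
theorem integralClosure_eq : integralClosure O L = Algebra.adjoin O {lam} := by
  refine le_antisymm (fun x hx => ?_) (adjoin_le_integralClosure (isIntegral_lam hπ k hlam))
  rcases eq_or_ne x 0 with rfl | hx0
  · exact zero_mem _
  obtain ⟨m, u, hu, rfl⟩ := exists_unit_mul_zpow hπ k hlam hx0
  rcases Int.eq_nat_or_neg m with ⟨j, rfl | rfl⟩
  · rw [zpow_natCast]
    exact mul_mem (evalAt_mem_adjoin hπ k hlam u)
      (pow_mem (Algebra.self_mem_adjoin_singleton O lam) j)
  rcases eq_or_ne j 0 with rfl | hj
  · rw [Nat.cast_zero, neg_zero, zpow_zero, mul_one]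
    exact evalAt_mem_adjoin hπ k hlam u
  -- a negative power of `lam` is not integral
  exfalso
  have hfd := finiteDimensional hπ k hlam
  obtain ⟨u', hu'⟩ := hu.exists_left_inv
  have hne := lam_ne_zero hπ k hlam
  have hint : IsIntegral O ((-lam)⁻¹) := by
    have h1 : IsIntegral O (evalAt hπ k hlam u' *
        (evalAt hπ k hlam u * lam ^ (-(j : ℤ)))) :=
      (isIntegral_evalAt hπ k hlam u').mul hx
    rw [← mul_assoc, ← map_mul, hu', map_one, one_mul] at h1
    obtain ⟨i, rfl⟩ := Nat.exists_eq_succ_of_ne_zero hj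
    have h2 := h1.mul ((isIntegral_lam hπ k hlam).pow i)
    rw [zpow_neg, zpow_natCast, pow_succ, mul_inv, mul_comm (lam ^ i)⁻¹, mul_assoc,
      inv_mul_cancel₀ (pow_ne_zero i hne), mul_one] at h2
    rw [inv_neg]
    exact h2.neg
  obtain ⟨c, hc⟩ := IsIntegrallyClosed.isIntegral_iff.1 (Algebra.isIntegral_norm K hint)
  rw [Algebra.norm_inv, norm_neg_lam hπ k hlam] at hc
  refine hπ.not_isUnit (IsUnit.of_mul_eq_one c (IsFractionRing.injective O K ?_))
  rw [map_mul, hc, map_one, mul_inv_cancel₀]
  exact (map_ne_zero_iff _ (IsFractionRing.injective O K)).2 hπ.ne_zero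

/-- The integers of `L` form a discrete valuation ring with uniformizer `lam`. -/
theorem isDiscreteValuationRing_integers :
    IsDiscreteValuationRing (integralClosure O L) ∧
      ∃ p : integralClosure O L, (p : L) = lam ∧ Irreducible p := by
  have hfd := finiteDimensional hπ k hlam
  set p : integralClosure O L := ⟨lam, isIntegral_lam hπ k hlam⟩
  have hne := lam_ne_zero hπ k hlam
  have hunit : ¬ IsUnit p := by
    intro hp
    obtain ⟨y, hy⟩ := hp.exists_left_inv
    have hy' : (y : L) * lam = 1 := congrArg Subtype.val hy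
    obtain ⟨c, hc⟩ := IsIntegrallyClosed.isIntegral_iff.1
      (Algebra.isIntegral_norm K (y : integralClosure O L).2.neg)
    refine hπ.not_isUnit (IsUnit.of_mul_eq_one c (IsFractionRing.injective O K ?_))
    rw [map_mul, hc, map_one, ← norm_neg_lam hπ k hlam, ← map_mul, neg_mul_neg, mul_comm, hy',
      map_one]
  have hdec : ∀ {x : integralClosure O L}, x ≠ 0 →
      ∃ (j : ℕ) (w : integralClosure O L), IsUnit w ∧ x = w * p ^ j := by
    intro x hx
    have hx' : (x : L) ∈ Algebra.adjoin O {lam} := integralClosure_eq hπ k hlam ▸ x.2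
    rw [Algebra.adjoin_singleton_eq_range_aeval] at hx'
    obtain ⟨P, hP : Polynomial.aeval lam P = (x : L)⟩ := hx'
    obtain ⟨j, u, hu, he⟩ := exists_unit_mul_pow hπ k hlam (h := (P : PowerSeries O))
      (by rw [evalAt_coe, hP]; exact fun h => hx (Subtype.ext h))
    obtain ⟨u', hu'⟩ := hu.exists_left_inv
    refine ⟨j, ⟨_, isIntegral_evalAt hπ k hlam u⟩,
      IsUnit.of_mul_eq_one ⟨_, isIntegral_evalAt hπ k hlam u'⟩ (Subtype.ext ?_),
      Subtype.ext ?_⟩
    · rw [MulMemClass.coe_mul, ← map_mul, mul_comm u u', hu', map_one]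
      rfl
    · rw [← hP, ← evalAt_coe hπ k hlam P, he]
      simp [p]
  have hp0 : p ≠ 0 := fun h => hne (congrArg Subtype.val h)
  have hirr : Irreducible p := by
    refine ⟨hunit, fun {a b} hab => ?_⟩
    obtain ⟨i, w, hw, rfl⟩ := hdec (left_ne_zero_of_mul (hab ▸ hp0))
    obtain ⟨j, w', hw', rfl⟩ := hdec (right_ne_zero_of_mul (hab ▸ hp0))
    rcases Nat.eq_zero_or_pos i with rfl | hi
    · exact Or.inl (by rwa [pow_zero, mul_one])
    rcases Nat.eq_zero_or_pos j with rfl | hj
    · exact Or.inr (by rwa [pow_zero, mul_one])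
    refine absurd ?_ hunit
    obtain ⟨i, rfl⟩ := Nat.exists_eq_succ_of_ne_zero hi.ne'
    obtain ⟨j, rfl⟩ := Nat.exists_eq_succ_of_ne_zero hj.ne'
    refine IsUnit.of_mul_eq_one (w * w' * p ^ (i + j)) (mul_left_cancel₀ hp0 ?_)
    rw [mul_one]
    conv_rhs => rw [hab]
    rw [pow_succ, pow_succ]
    ring
  refine ⟨IsDiscreteValuationRing.ofHasUnitMulPowIrreducibleFactorization
    ⟨p, hirr, fun {x} hx => ?_⟩, p, rfl, hirr⟩
  obtain ⟨j, w, hw, rfl⟩ := hdec hx
  exact ⟨j, hw.unit, by rw [IsUnit.unit_spec, mul_comm]⟩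

/-- The residue field does not grow. -/
theorem exists_sub_mem (x : L) (hx : IsIntegral O x) : ∃ (c : O) (y : L),
    IsIntegral O y ∧ x = algebraMap O L c + lam * y := by
  have hmem : x ∈ Algebra.adjoin O {lam} := integralClosure_eq hπ k hlam ▸ hx
  rw [Algebra.adjoin_singleton_eq_range_aeval] at hmem
  obtain ⟨p, rfl⟩ := hmem
  refine ⟨p.coeff 0, Polynomial.aeval lam p.divX, ?_, ?_⟩
  · exact adjoin_le_integralClosure (isIntegral_lam hπ k hlam)
      (Polynomial.aeval_mem_adjoin_singleton O lam)
  · have h := congrArg (Polynomial.aeval lam) (Polynomial.X_mul_divX_add p)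
    rw [map_add, map_mul, Polynomial.aeval_X, Polynomial.aeval_C] at h
    exact h.symm.trans (add_comm _ _)

end Fermat.Agent.LubinTate
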