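import Fermat.Agent.LubinTate.Law
import Mathlib.RingTheory.Polynomial.Eisenstein.Basic
import Mathlib.RingTheory.PowerSeries.Inverse

/-!
# Torsion of the group of Lubin and Tate: the series

For the series `f = π X + X ^ q` the iterates `g k` factor as `g (k + 1) = g k * Φ k` with
`Φ k = g k ^ (q - 1) + π`, and for a unit `a` the substitution of `[a]` changes `g k` and `Φ k`
by units only.
-/

set_option autoImplicit false

noncomputable section

open MvPowerSeries Finsupp

namespace Fermat.Agent.LubinTate

variable {O : Type*} [CommRing O] {π : O} {q : ℕ} {f g : PowerSeries O}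
  (hO : IsLubinTateBase π q) (hf : IsLTSeries π q f) (hg : IsLTSeries π q g)

/-- The law of Lubin and Tate has neutral element zero. -/
theorem law_subst_zero :
    (law hO hf).toPowerSeries.subst ![MvPowerSeries.X 0, 0] =
      (MvPowerSeries.X 0 : MvPowerSeries (Fin 2) O) := by
  classical
  have h0 := hf.constantCoeff_eq
  have hz : Intertwines f f (0 : MvPowerSeries (Fin 2) O) := by
    refine ⟨map_zero _, ?_⟩
    rw [PowerSeries.subst_zero_of_constantCoeff_zero h0,
      ← MvPowerSeries.coe_substAlgHom (hasSubst_atVars h0), map_zero]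
  refine Intertwines.ext hO hf hf
    ((intertwines_intertwiner hO hf hf fun _ : Fin 2 => (1 : O)).subst
      (Fin.forall_fin_two.2 ⟨Intertwines.X h0 0, hz⟩) h0 h0) (Intertwines.X h0 0) fun i => ?_
  rw [coeff_single_subst (by simp [Fin.forall_fin_two])]
  fin_cases i <;> simp [Fin.sum_univ_two, (law hO hf).lin_coeff_X, coeff_index_single_X]

/-- `F (X, Y) = X + Y * H` with `H` beginning with one. -/
theorem exists_law_eq : ∃ H : MvPowerSeries (Fin 2) O, H.constantCoeff = 1 ∧
    (law hO hf).toPowerSeries = MvPowerSeries.X 0 + MvPowerSeries.X 1 * H := by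
  classical
  set F := (law hO hf).toPowerSeries
  have hvec : (![1, 0] : Fin 2 → O) • (MvPowerSeries.X : Fin 2 → MvPowerSeries (Fin 2) O) =
      ![MvPowerSeries.X 0, 0] := by
    funext i
    fin_cases i <;> simp
  have hres : rescale (![1, 0] : Fin 2 → O) F = MvPowerSeries.X 0 := by
    rw [rescale_eq_subst, hvec]
    exact law_subst_zero hO hf
  have hdvd : (MvPowerSeries.X 1 : MvPowerSeries (Fin 2) O) ∣ F - MvPowerSeries.X 0 := by
    rw [MvPowerSeries.X_dvd_iff]
    intro m hm
    have h := congrArg (coeff m) hres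
    rw [coeff_rescale, Finsupp.prod_fintype _ _ (by simp), Fin.prod_univ_two] at h
    simp only [hm, Matrix.cons_val_zero, Matrix.cons_val_one, one_pow, pow_zero, one_mul] at h
    rw [map_sub, h, sub_self]
  obtain ⟨H, hH⟩ := hdvd
  rw [sub_eq_iff_eq_add'] at hH
  refine ⟨H, ?_, hH⟩
  have h := (law hO hf).lin_coeff_Y
  rw [show (law hO hf).toPowerSeries = _ from hH, map_add, coeff_index_single_X,
    if_neg one_ne_zero, zero_add, MvPowerSeries.X, coeff_monomial_mul] at h
  simpa using h

/-- `[a + b] = [a] + [b] * G` with `G` beginning with one. -/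
theorem exists_scalarHom_add (a b : O) : ∃ G : PowerSeries O, G.constantCoeff = 1 ∧
    scalarHom hO hf hg (a + b) = scalarHom hO hf hg a + scalarHom hO hf hg b * G := by
  obtain ⟨H, hH1, hH⟩ := exists_law_eq hO hf
  set A := scalarHom hO hf hg a
  set B := scalarHom hO hf hg b
  have hA : A.constantCoeff = 0 := constantCoeff_scalarHom hO hf hg a
  have hB : B.constantCoeff = 0 := constantCoeff_scalarHom hO hf hg b
  have hs : HasSubst (![A, B] : Fin 2 → MvPowerSeries Unit O) :=
    hasSubst_of_constantCoeff_zero (Fin.forall_fin_two.2 ⟨hA, hB⟩)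
  refine ⟨H.subst ![A, B], ?_, ?_⟩
  · rw [PowerSeries.constantCoeff, MvPowerSeries.constantCoeff_subst hs, finsum_eq_single _ 0]
    · simp [hH1]
    · intro d hd
      obtain ⟨s, hs'⟩ := Finsupp.ne_iff.1 hd
      rw [map_finsuppProd, Finsupp.prod, Finset.prod_eq_zero
        (Finsupp.mem_support_iff.2 hs'), smul_zero]
      rw [map_pow]
      have h : MvPowerSeries.constantCoeff ((![A, B] : Fin 2 → MvPowerSeries Unit O) s) = 0 :=
        (Fin.forall_fin_two.2 ⟨hA, hB⟩ : ∀ s, MvPowerSeries.constantCoeff
          ((![A, B] : Fin 2 → MvPowerSeries Unit O) s) = 0) s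
      rw [h, zero_pow hs']
  · rw [scalarHom_add, hH, ← MvPowerSeries.coe_substAlgHom hs, map_add, map_mul,
      MvPowerSeries.coe_substAlgHom hs, MvPowerSeries.subst_X hs, MvPowerSeries.subst_X hs]
    rfl

/-! ## The polynomial of Lubin and Tate and its iterates -/

/-- The polynomial `π X + X ^ q`. -/
def basicPoly (π : O) (q : ℕ) : Polynomial O := Polynomial.X ^ q + Polynomial.C π * Polynomial.X

/-- The iterates of `basicPoly`: their roots are the torsion of the group. -/
def iterPoly (π : O) (q : ℕ) : ℕ → Polynomial O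
  | 0 => Polynomial.X
  | k + 1 => (basicPoly π q).comp (iterPoly π q k)

/-- The factor of exact level `k + 1`. -/
def levelPoly (π : O) (q k : ℕ) : Polynomial O :=
  iterPoly π q k ^ (q - 1) + Polynomial.C π

theorem isLTSeries_basicPoly (hO : IsLubinTateBase π q) :
    IsLTSeries π q (basicPoly π q : PowerSeries O) where
  constantCoeff_eq := by
    rw [← PowerSeries.coeff_zero_eq_constantCoeff_apply, Polynomial.coeff_coe, basicPoly]
    simp [Polynomial.coeff_X_pow, show (0 : ℕ) ≠ q by have := hO.two_le; omega]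
  coeff_one_eq := by
    rw [Polynomial.coeff_coe, basicPoly]
    simp [Polynomial.coeff_X_pow, show (1 : ℕ) ≠ q by have := hO.two_le; omega]
  congr_frobenius n := by
    rw [Polynomial.coeff_coe, basicPoly, Polynomial.coeff_add, Polynomial.coeff_X_pow,
      add_sub_cancel_left, Polynomial.coeff_C_mul]
    exact Ideal.mul_mem_right _ _ (Ideal.mem_span_singleton_self _)

theorem iterPoly_succ (hq : 1 ≤ q) (k : ℕ) :
    iterPoly π q (k + 1) = iterPoly π q k * levelPoly π q k := by
  rw [iterPoly, basicPoly, levelPoly, Polynomial.add_comp, Polynomial.pow_comp,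
    Polynomial.X_comp, Polynomial.mul_comp, Polynomial.C_comp, Polynomial.X_comp]
  obtain ⟨r, rfl⟩ := Nat.exists_eq_add_of_le hq
  rw [Nat.add_sub_cancel_left, add_comm 1 r, pow_succ]
  ring

theorem iterPoly_dvd (hq : 1 ≤ q) {j k : ℕ} (h : j ≤ k) :
    iterPoly π q j ∣ iterPoly π q k := by
  induction k, h using Nat.le_induction with
  | base => exact dvd_rfl
  | succ k _ ih => exact ih.trans ⟨_, iterPoly_succ hq k⟩

theorem monic_iterPoly (hq : 2 ≤ q) (k : ℕ) : (iterPoly π q k).Monic ∧
    (iterPoly π q k).map (Ideal.Quotient.mk (Ideal.span {π})) = Polynomial.X ^ q ^ k ∧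
    (iterPoly π q k).coeff 0 = 0 ∧ ((iterPoly π q k).natDegree ≤ q ^ k) := by
  induction k with
  | zero => simp [iterPoly, Polynomial.monic_X, Polynomial.natDegree_X_le]
  | succ k ih =>
    obtain ⟨h1, h2, h3, h4⟩ := ih
    have hpi : Ideal.Quotient.mk (Ideal.span {π}) π = 0 :=
      Ideal.Quotient.eq_zero_iff_mem.2 (Ideal.mem_span_singleton_self _)
    refine ⟨?_, ?_, ?_, ?_⟩
    · rcases subsingleton_or_nontrivial O with _ | _
      · exact Polynomial.monic_of_subsingleton _
      rw [iterPoly, basicPoly, Polynomial.add_comp, Polynomial.pow_comp, Polynomial.X_comp,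
        Polynomial.mul_comp, Polynomial.C_comp, Polynomial.X_comp]
      refine Polynomial.Monic.add_of_left (h1.pow _) ?_
      rcases eq_or_ne (iterPoly π q k).natDegree 0 with h | h
      · exfalso
        have := Polynomial.eq_C_of_natDegree_eq_zero h
        rw [h3, map_zero] at this
        exact h1.ne_zero this
      refine Polynomial.degree_lt_degree (lt_of_le_of_lt (Polynomial.natDegree_C_mul_le _ _) ?_)
      rw [h1.natDegree_pow]
      exact lt_mul_of_one_lt_left (Nat.pos_of_ne_zero h) (by omega)
    · rw [iterPoly, Polynomial.map_comp, h2]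
      simp [basicPoly, hpi, ← pow_mul, pow_succ]
    · simp [iterPoly, basicPoly, Polynomial.coeff_zero_eq_eval_zero,
        show Polynomial.eval 0 (iterPoly π q k) = 0 by
          rw [← Polynomial.coeff_zero_eq_eval_zero, h3], zero_pow (by omega : q ≠ 0)]
    · rw [iterPoly]
      refine Polynomial.natDegree_comp_le.trans ?_
      rw [pow_succ']
      refine Nat.mul_le_mul ?_ h4
      rw [basicPoly]
      exact Polynomial.natDegree_add_le_of_degree_le (Polynomial.natDegree_X_pow_le q)
        ((Polynomial.natDegree_C_mul_le _ _).trans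
          (Polynomial.natDegree_X_le.trans (by omega)))

variable [Nontrivial (O ⧸ Ideal.span {π})]

theorem natDegree_iterPoly (hq : 2 ≤ q) (k : ℕ) : (iterPoly π q k).natDegree = q ^ k := by
  refine le_antisymm (monic_iterPoly hq k).2.2.2 ?_
  calc q ^ k = ((iterPoly π q k).map (Ideal.Quotient.mk (Ideal.span {π}))).natDegree := by
        rw [(monic_iterPoly hq k).2.1, Polynomial.natDegree_X_pow]
    _ ≤ _ := Polynomial.natDegree_map_le

theorem levelPoly_facts (hq : 2 ≤ q) (k : ℕ) : (levelPoly π q k).Monic ∧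
    (levelPoly π q k).natDegree = q ^ k * (q - 1) ∧ (levelPoly π q k).coeff 0 = π ∧
    ∀ i < q ^ k * (q - 1), (levelPoly π q k).coeff i ∈ Ideal.span {π} := by
  have : Nontrivial O := (Ideal.Quotient.mk (Ideal.span {π})).domain_nontrivial
  obtain ⟨h1, h2, h3, -⟩ := monic_iterPoly (π := π) hq k
  have hdeg : (iterPoly π q k ^ (q - 1)).natDegree = q ^ k * (q - 1) := by
    rw [h1.natDegree_pow, natDegree_iterPoly hq, mul_comm]
  have hpos : 0 < q ^ k * (q - 1) :=
    Nat.mul_pos (pow_pos (by omega) k) (by omega)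
  have hlt : (Polynomial.C π).degree < (iterPoly π q k ^ (q - 1)).degree :=
    Polynomial.degree_lt_degree (by rwa [Polynomial.natDegree_C, hdeg])
  refine ⟨(h1.pow _).add_of_left hlt, ?_, ?_, fun i hi => ?_⟩
  · rw [levelPoly, Polynomial.natDegree_add_eq_left_of_degree_lt hlt, hdeg]
  · rw [levelPoly, Polynomial.coeff_add, Polynomial.coeff_C_zero,
      Polynomial.coeff_zero_eq_eval_zero, Polynomial.eval_pow,
      ← Polynomial.coeff_zero_eq_eval_zero, h3, zero_pow (by omega), zero_add]
  · rw [← Ideal.Quotient.eq_zero_iff_mem, ← Polynomial.coeff_map, levelPoly, Polynomial.map_add,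
      Polynomial.map_pow, h2, Polynomial.map_C, Ideal.Quotient.eq_zero_iff_mem.2
        (Ideal.mem_span_singleton_self π), map_zero, add_zero, ← pow_mul, Polynomial.coeff_X_pow,
      if_neg hi.ne]

/-! ## Substituting scalars -/

omit [Nontrivial (O ⧸ Ideal.span {π})]

/-- `[π ^ k]` is the `k`th iterate. -/
theorem scalarHom_pow (k : ℕ) :
    scalarHom hO (isLTSeries_basicPoly hO) (isLTSeries_basicPoly hO) (π ^ k) =
      (iterPoly π q k : PowerSeries O) := by
  set h0 := isLTSeries_basicPoly hO
  induction k with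
  | zero => rw [pow_zero, scalarHom_one hO h0, iterPoly, Polynomial.coe_X]
  | succ k ih =>
    have hs : PowerSeries.HasSubst ((iterPoly π q k : PowerSeries O)) :=
      PowerSeries.HasSubst.of_constantCoeff_zero (by
        rw [← ih]; exact constantCoeff_scalarHom hO h0 h0 _)
    rw [pow_succ', scalarHom_mul hO h0 h0 h0, ih, scalarHom_uniformizer hO h0,
      PowerSeries.subst_coe hs, iterPoly]
    rw [show ((basicPoly π q).comp (iterPoly π q k) : PowerSeries O) =
      Polynomial.coeToPowerSeries.algHom O ((basicPoly π q).comp (iterPoly π q k)) by simp,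
      Polynomial.comp_eq_aeval, ← Polynomial.aeval_algHom_apply]
    simp

/-- `[π ^ k] ∘ [a] = g k * U` with `U` beginning with `a`. -/
theorem exists_iterPoly_subst (a : O) (k : ℕ) : ∃ U : PowerSeries O, U.constantCoeff = a ∧
    scalarHom hO (isLTSeries_basicPoly hO) (isLTSeries_basicPoly hO) (a * π ^ k) =
        (iterPoly π q k : PowerSeries O) * U ∧
      PowerSeries.subst (scalarHom hO (isLTSeries_basicPoly hO) (isLTSeries_basicPoly hO) a)
        (iterPoly π q k : PowerSeries O) = (iterPoly π q k : PowerSeries O) * U := by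
  set h0 := isLTSeries_basicPoly hO
  set A := scalarHom hO h0 h0 a with hAdef
  have hA : A.constantCoeff = 0 := constantCoeff_scalarHom hO h0 h0 a
  set G : PowerSeries O := (iterPoly π q k : PowerSeries O) with hGdef
  have hG : G.constantCoeff = 0 := by
    rw [hGdef, ← scalarHom_pow hO k]; exact constantCoeff_scalarHom hO h0 h0 _
  have hsG : PowerSeries.HasSubst G := PowerSeries.HasSubst.of_constantCoeff_zero hG
  set S : PowerSeries O := PowerSeries.mk fun n => A.coeff (n + 1)
  have hAS : A = PowerSeries.X * S := by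
    conv_lhs => rw [A.eq_X_mul_shift_add_const, hA, map_zero, add_zero]
  have hU : PowerSeries.subst G A = G * PowerSeries.subst G S := by
    rw [hAS, PowerSeries.subst_mul hsG, PowerSeries.subst_X hsG]
  refine ⟨PowerSeries.subst G S, ?_, ?_, ?_⟩
  · rw [PowerSeries.constantCoeff, PowerSeries.constantCoeff_subst hsG, finsum_eq_single _ 0]
    · simp [S, hAdef, coeff_one_scalarHom hO h0 h0]
    · intro m hm
      rw [map_pow, show MvPowerSeries.constantCoeff G = 0 from hG, zero_pow hm, smul_zero]
  · rw [scalarHom_mul hO h0 h0 h0, scalarHom_pow hO, ← hAdef, ← hGdef, hU]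
  · rw [hGdef, ← scalarHom_pow hO k, ← scalarHom_mul hO h0 h0 h0, mul_comm (π ^ k) a,
      scalarHom_mul hO h0 h0 h0, scalarHom_pow hO, ← hAdef, ← hGdef, hU]

variable [IsDomain O]

/-- A unit scalar moves `Φ k` by a unit. -/
theorem levelPoly_subst {a : O} (ha : IsUnit a) (k : ℕ) :
    (levelPoly π q k : PowerSeries O) ∣
      PowerSeries.subst (scalarHom hO (isLTSeries_basicPoly hO) (isLTSeries_basicPoly hO) a)
        (levelPoly π q k : PowerSeries O) := by
  set h0 := isLTSeries_basicPoly hO
  set A := scalarHom hO h0 h0 a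
  have hs : PowerSeries.HasSubst A :=
    PowerSeries.HasSubst.of_constantCoeff_zero (constantCoeff_scalarHom hO h0 h0 a)
  obtain ⟨U, hU, -, hUe⟩ := exists_iterPoly_subst hO a k
  obtain ⟨U', -, -, hUe'⟩ := exists_iterPoly_subst hO a (k + 1)
  have hUu : IsUnit U := PowerSeries.isUnit_iff_constantCoeff.2 (hU ▸ ha)
  rw [iterPoly_succ (by have := hO.two_le; omega), Polynomial.coe_mul,
    PowerSeries.subst_mul hs, hUe, mul_assoc, mul_assoc] at hUe'
  have hne : (iterPoly π q k : PowerSeries O) ≠ 0 := fun h =>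
    (monic_iterPoly (π := π) hO.two_le k).1.ne_zero (Polynomial.coe_eq_zero_iff.1 h)
  exact (hUu.dvd_mul_left).1 ⟨U', mul_left_cancel₀ hne hUe'⟩

end Fermat.Agent.LubinTate
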